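import Fermat.Agent.S42.H96.Skeleton

/-!
# Program A, leaf AJ-09 `LeafPINV` (helper46)

The algebraic property `PC N p g` ("`p` divides the order of `g` at every place of `M_ℂ` over a
finite value of `j`") is invariant under the action of `Aut(ℂ)` on `q`-expansion coefficients:
`σ` maps places to places (`SemilinearAut.ord_smul`) and fixes `j` (rational `q`-expansion).

Generic part: transport of orders and of membership along a semilinear automorphism.
-/

set_option autoImplicit false

open AlgebraicCurve ModularCurve
open scoped Pointwise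

noncomputable section

namespace Fermat.Agent.S42.H46

section Generic

variable {K F : Type*} [Field K] [Field F] [Algebra K F]

/-- Orders at `v` of `g • f` are orders of `f` at `g⁻¹ • v`. -/
theorem ord_smul_eq (g : SemilinearAut K F) (v : Place K F) (f : F) :
    v.ord (g • f) = (g⁻¹ • v).ord f := by
  have h := SemilinearAut.ord_smul g (g⁻¹ • v) f
  rwa [smul_inv_smul] at h

/-- Membership in the valuation ring of `g⁻¹ • v`. -/
theorem mem_inv_smul_iff (g : SemilinearAut K F) (v : Place K F) (f : F) :
    f ∈ (g⁻¹ • v).toValuationSubring ↔ g • f ∈ v.toValuationSubring := by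
  rw [SemilinearAut.smul_toValuationSubring,
    ValuationSubring.mem_pointwise_smul_iff_inv_smul_mem, inv_inv]

/-- A divisibility property of orders at the places whose valuation ring contains a fixed
element `x` is stable under a semilinear automorphism fixing `x`. -/
theorem forall_dvd_ord_smul (g : SemilinearAut K F) (x : F) (hx : g • x = x) (n : ℤ) (f : F)
    (h : ∀ v : Place K F, x ∈ v.toValuationSubring → n ∣ v.ord f) :
    ∀ v : Place K F, x ∈ v.toValuationSubring → n ∣ v.ord (g • f) := by
  intro v hv
  rw [ord_smul_eq]
  refine h _ ?_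
  rw [mem_inv_smul_iff, hx]
  exact hv

end Generic

open Fermat.Agent.S42.H96 Fermat.Agent.S24

/-- `Aut(ℂ)` fixes the generators `j_d` of `M_ℂ` (rational `q`-expansions). -/
theorem sigM_jC (N : ℕ) (σ : ℂ ≃ₐ[ℚ] ℂ) (d : N.divisors) : sigM N σ (jC N d) = jC N d := by
  apply Subtype.ext
  show ((arithmeticGalois (modularFunctionFieldFull N) σ • jC N d : MC N) : LaurentSeries ℂ) = _
  rw [coe_arithmeticGalois_smul]
  exact coeffMap_coeffEmb σ _

/-- **Leaf AJ-09** (`LeafPINV`): the property `PC` is invariant under `Aut(ℂ)`. -/
theorem leafPINV (N p : ℕ) [NeZero N] : LeafPINV N p := by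
  intro σ g hP
  exact forall_dvd_ord_smul (arithmeticGalois (modularFunctionFieldFull N) σ) (jC N (oneDiv N))
    (sigM_jC N σ (oneDiv N)) (p : ℤ) g hP

end Fermat.Agent.S42.H46
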