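import Fermat.Agent.S42.H96.Skeleton
import Fermat.Agent.S24.Ker
import Fermat.Agent.S24.Transl
import Fermat.Agent.S18.H78.ConstGeneric
import Fermat.Agent.S18.H87.Index
import Fermat.Agent.S29.H37.AnalyticAlgebraic

/-!
# Program A, leaf AJ-03 `LeafZR` (helper46): `Rel ψ 0 → ψ = 0`

If `C` is a polynomial in the `j_d` with `div (evF C) = p • D`, `D` principal, and `Θ(C) = G^p` with
`G` holomorphic of character `ζ_p ^ ψ`, then `ψ = 0`:
`D = div h`, so `evF C = c · h^p` with `c` a constant (no zeros, no poles); writing `h = A / B` we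
get `(G · Θ(B))^p = ι(c) · Θ(A)^p`, hence `G · Θ(B) = ξ · Θ(A)` for a constant `ξ` (identity
theorem: a finite product of nonzero holomorphic functions is nonzero), and the right-hand side
is `Γ₀(N)`-invariant and not identically zero, so the character is trivial.
-/

set_option autoImplicit false

open UpperHalfPlane CongruenceSubgroup ModularCurve AlgebraicCurve IntermediateField
open Fermat.Agent.S24 Fermat.Agent.S42.H96
open scoped MatrixGroups Manifold

noncomputable section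

namespace Fermat.Agent.S42.H46

/-- **Roots of the same `p`-th power.** If `R, S` are holomorphic on `ℍ` with `R^p = a · S^p`
(`a` a constant), then `R = ξ · S` for a constant `ξ` with `ξ^p = a`. -/
theorem exists_const_of_pow_eq {p : ℕ} (hp : p ≠ 0) {R S : ℍ → ℂ} (hR : MDiff R) (hS : MDiff S)
    (a : ℂ) (h : ∀ τ, R τ ^ p = a * S τ ^ p) :
    ∃ ξ : ℂ, ξ ^ p = a ∧ ∀ τ, R τ = ξ * S τ := by
  classical
  obtain ⟨ξ₀, hξ₀⟩ : ∃ ξ₀ : ℂ, ξ₀ ^ p = a := IsAlgClosed.exists_pow_nat_eq a (Nat.pos_of_ne_zero hp)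
  have hprim : IsPrimitiveRoot (Complex.exp (2 * Real.pi * Complex.I / p)) p :=
    Complex.isPrimitiveRoot_exp p hp
  -- pointwise factorisation
  have hfact : ∀ τ, ∏ ζ ∈ Polynomial.nthRootsFinset p (1 : ℂ), (R τ - ζ * (ξ₀ * S τ)) = 0 := by
    intro τ
    rw [← hprim.pow_sub_pow_eq_prod_sub_mul (R τ) (ξ₀ * S τ) (Nat.pos_of_ne_zero hp), mul_pow,
      hξ₀, h τ, sub_self]
  by_contra hcon0
  have hcon : ∀ ξ : ℂ, ξ ^ p = a → ∃ τ, R τ ≠ ξ * S τ := by
    intro ξ hξ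
    by_contra h'
    exact hcon0 ⟨ξ, hξ, fun τ => by_contra fun h'' => h' ⟨τ, h''⟩⟩
  -- all the factors are nonzero functions
  have hne : ∀ ζ : Polynomial.nthRootsFinset p (1 : ℂ),
      (fun τ => R τ - (ζ : ℂ) * (ξ₀ * S τ)) ≠ 0 := by
    intro ζ h0
    have hζ : (ζ : ℂ) ^ p = 1 := (Polynomial.mem_nthRootsFinset (Nat.pos_of_ne_zero hp) 1).mp ζ.2
    obtain ⟨τ, hτ⟩ := hcon ((ζ : ℂ) * ξ₀) (by rw [mul_pow, hζ, hξ₀, one_mul])
    apply hτ
    have := congrFun h0 τ
    simp only [Pi.zero_apply] at this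
    rw [mul_assoc]
    exact sub_eq_zero.mp this
  have hmd : ∀ ζ : Polynomial.nthRootsFinset p (1 : ℂ),
      MDiff (fun τ => R τ - (ζ : ℂ) * (ξ₀ * S τ)) := by
    intro ζ
    exact hR.sub (mdifferentiable_const.mul (mdifferentiable_const.mul hS))
  obtain ⟨τ, hτ⟩ := Fermat.Agent.S29.H37.exists_forall_ne_zero _ hmd hne
  have h0 := hfact τ
  rw [Finset.prod_eq_zero_iff] at h0
  obtain ⟨ζ, hζ, hz⟩ := h0
  exact hτ ⟨ζ, hζ⟩ hz

/-- The character `ζ_p ^ ψ` is trivial only if `ψ = 0`. -/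
theorem eq_zero_of_chiOf_eq_one {N p : ℕ} (hp : p ≠ 0) (ψ : Additive (Gamma0 N) →+ ZMod p)
    (h : ∀ γ : Gamma0 N, chiOf p ψ γ = 1) : ψ = 0 := by
  have : NeZero p := ⟨hp⟩
  have hprim : IsPrimitiveRoot (zetaP p) p := Complex.isPrimitiveRoot_exp p hp
  ext γ
  have h1 := h γ
  unfold chiOf at h1
  have hdvd : p ∣ (ψ (Additive.ofMul γ)).val := (hprim.pow_eq_one_iff_dvd _).mp h1
  have hlt : (ψ (Additive.ofMul γ)).val < p := ZMod.val_lt _
  have h0 : (ψ (Additive.ofMul γ)).val = 0 := Nat.eq_zero_of_dvd_of_lt hdvd hlt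
  exact (ZMod.val_eq_zero _).mp h0

/-- **Leaf AJ-03** (`LeafZR`): a homomorphism in Kummer relation with the zero class is zero. -/
theorem leafZR (N p : ℕ) [NeZero N] (hp : p ≠ 0) : LeafZR N p := by
  rintro ψ ⟨C, D, hC, hD, h0, G, hG, hGp, hGc⟩
  -- `D` is principal
  have hmem : D ∈ (Divisor.principal (K := Kbar) (F := FF N)).addSubgroupOf
      (Divisor.degZero (K := Kbar) (F := FF N)) :=
    (QuotientAddGroup.eq_zero_iff _).mp h0.symm
  rw [AddSubgroup.mem_addSubgroupOf] at hmem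
  obtain ⟨h, hh0, hh⟩ := hmem
  -- `evF C / h^p` is a constant
  have : FiniteDimensional Kbar⟮jgen N⟯ (FF N) := (Fermat.Agent.S18.H87.finrank_adjoin_jgen N).1
  have hord : ∀ v : Place Kbar (FF N), v.ord (evF N C / h ^ p) = 0 := by
    intro v
    rw [div_eq_mul_inv, v.ord_mul hC (inv_ne_zero (pow_ne_zero p hh0)), v.ord_inv,
      ← zpow_natCast, Place.ord_zpow, hD v, hh v]
    ring
  obtain ⟨c, hc⟩ := Fermat.Agent.S18.H78.const_of_forall_ord_eq_zero (jgen N) _ hord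
  have hc0 : c ≠ 0 := by
    rintro rfl
    rw [map_zero, div_eq_zero_iff] at hc
    rcases hc with hc | hc
    · exact hC hc
    · exact pow_ne_zero p hh0 hc
  -- `h = A / B`
  obtain ⟨A, B, hB, hAB⟩ := evF_frac N h
  have hA : evF N A ≠ 0 := by
    intro hA0
    rw [hA0, zero_div] at hAB
    exact hh0 hAB
  -- the polynomial identity in `F`
  have hrel : evF N (C * B ^ p - MvPolynomial.C c * A ^ p) = 0 := by
    have h1 : evF N C = algebraMap Kbar (FF N) c * h ^ p := by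
      rw [← hc, div_mul_cancel₀ _ (pow_ne_zero p hh0)]
    rw [map_sub, map_mul, map_mul, map_pow, map_pow, h1, hAB, div_pow,
      show evF N (MvPolynomial.C c) = algebraMap Kbar (FF N) c from
        (MvPolynomial.aeval_C (jF N) c)]
    field_simp
    ring
  have hTh : Theta N (C * B ^ p - MvPolynomial.C c * A ^ p) = 0 := (Theta_eq_zero_iff N _).mpr hrel
  have hTh' : ∀ τ, Theta N C τ * Theta N B τ ^ p = iota c * Theta N A τ ^ p := by
    intro τ
    have := congrFun hTh τ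
    rw [map_sub, map_mul, map_mul, map_pow, map_pow, Theta_C] at this
    simpa [sub_eq_zero] using this
  -- `G · Θ(B) = ξ · Θ(A)`
  obtain ⟨ξ, hξ, hRS⟩ := exists_const_of_pow_eq hp (R := fun τ => G τ * Theta N B τ)
    (S := Theta N A) (hG.mul (mdiff_Theta N B)) (mdiff_Theta N A) (iota c)
    (fun τ => by rw [mul_pow, hGp τ, hTh' τ])
  have hξ0 : ξ ≠ 0 := by
    rintro rfl
    rw [zero_pow hp] at hξ
    exact hc0 ((map_eq_zero iota).mp hξ.symm)
  -- a point where `Θ(A) ≠ 0`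
  have hThA : Theta N A ≠ 0 := fun h0 => hA ((Theta_eq_zero_iff N A).mp h0)
  obtain ⟨τ₀, hτ₀⟩ : ∃ τ₀, Theta N A τ₀ ≠ 0 := by
    by_contra hcon
    exact hThA (funext fun τ => by_contra fun h' => hcon ⟨τ, h'⟩)
  have hGB0 : G τ₀ * Theta N B τ₀ ≠ 0 := by
    rw [hRS τ₀]
    exact mul_ne_zero hξ0 hτ₀
  -- the character is trivial
  apply eq_zero_of_chiOf_eq_one hp ψ
  intro γ
  have h1 := hRS ((γ : SL(2, ℤ)) • τ₀)
  rw [Theta_smul_of_mem N γ.2 A τ₀, Theta_smul_of_mem N γ.2 B τ₀, hGc γ τ₀, ← hRS τ₀] at h1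
  have h2 : (chiOf p ψ γ - 1) * (G τ₀ * Theta N B τ₀) = 0 := by
    rw [sub_mul, one_mul, ← mul_assoc, h1, sub_self]
  rcases mul_eq_zero.mp h2 with h3 | h3
  · exact sub_eq_zero.mp h3
  · exact absurd h3 hGB0

end Fermat.Agent.S42.H46
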